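import Fermat.Agent.S17.H35.ContractSum
import Fermat.Agent.S17.H980.PosLinEmb
import Mathlib.GroupTheory.CosetCover

/-!
# S17 / tower H, TOP-GLUE (helper35, subtask 606): (BEZ), (ADJ), (GAUSS), (VDM) in package form

Generic part (any `K`, `F` with `FF1 K F`, any embeddings `E₁`, `E₂`), on plain divisors.

Data (for the concrete `PairingPackage`):

* `kapSum E D = Σ_P D(P) κ(P)`                       (package field `K`);
* `selfPair E D = Σ_P D(P) (D − D(P) P . P)`, `delta E D = selfPair E D / 2`   (field `δ`);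
* `plHt E D = h(pt P₁ ∧ … ∧ pt P_d)`, the points of the support of `D` in any enumeration
  (field `Pl`).

Results (`C` always uniform):

* `exists_pencil_family` : `m + 1` nonzero forms with pairwise disjoint hyperplane sections;
* `bez`        : `|N (Z a) − m h(a)| ≤ C`                            from (E3);
* `adj_sum`    : (ADJ) summed over a reduced part `D` of `Z a = D + D'`;
* `vdm_enum`, `vdm_sum` : (VDM) for a reduced divisor, in terms of `naive` and `delta`;
* `gauss_sum`  : (GAUSS) for `K₀ = Rt − c ∞`, with `hD(∞, P) = N(P) / m + O(1)` from (E3).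
-/

set_option autoImplicit false
set_option linter.unusedSectionVars false

noncomputable section

open AlgebraicCurve

namespace Fermat.Agent.S17.H35

open Fermat.Agent.Lib.RR Fermat.Agent.S17.HWall Fermat.Agent.S17.HContract

variable {K F : Type*} [Field K] [CharZero K] [Field F] [Algebra K F] [FF1 K F]

/-! ## The remaining data -/

/-- the tangent term `K(D) = Σ_P D(P) κ(P)` -/
def kapSum (E : EmbData K F) (D : Divisor K F) : ℝ :=
  D.sum fun P n => (n : ℝ) * kap E P

/-- twice the off-diagonal self pairing: `Σ_P D(P) (D − D(P) P . P)` -/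
def selfPair (E : EmbData K F) (D : Divisor K F) : ℝ :=
  D.sum fun P n => (n : ℝ) * pairPt E (D.erase P) P

/-- the off-diagonal self pairing `δ(D) = Σ_{P < Q} D(P) D(Q) hD(P, Q)` -/
def delta (E : EmbData K F) (D : Divisor K F) : ℝ := selfPair E D / 2

/-- the Plücker height of the points of the support of `D` -/
def plHt (E : EmbData K F) (D : Divisor K F) : ℝ :=
  ht (plucker fun i : Fin D.support.card => E.pt (D.support.equivFin.symm i : Place K F))

/-! ## More calculus -/

theorem pairPt_neg (E : EmbData K F) (D : Divisor K F) (P : Place K F) :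
    pairPt E (-D) P = - pairPt E D P := by
  have h := pairPt_add E D (-D) P
  rw [add_neg_cancel, pairPt_zero] at h
  linarith

theorem pairPt_sub (E : EmbData K F) (D D' : Divisor K F) (P : Place K F) :
    pairPt E (D - D') P = pairPt E D P - pairPt E D' P := by
  rw [sub_eq_add_neg, pairPt_add, pairPt_neg]
  ring

theorem pairPt_zsmul (E : EmbData K F) (k : ℤ) (D : Divisor K F) (P : Place K F) :
    pairPt E (k • D) P = k * pairPt E D P := by
  induction k using Int.induction_on with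
  | zero => simp
  | succ k ih => rw [add_smul, one_smul, pairPt_add, ih]; push_cast; ring
  | pred k ih => rw [sub_smul, one_smul, pairPt_sub, ih]; push_cast; ring

@[simp] theorem pairPt_prim (E : EmbData K F) (A P : Place K F) :
    pairPt E (prim A) P = hD E A P := by
  unfold prim
  rw [pairPt_single]
  simp

theorem pairPt_erase_add (E : EmbData K F) {D D' : Divisor K F} {P : Place K F}
    (h : D' P = 0) :
    pairPt E ((D + D').erase P) P = pairPt E (D.erase P) P + pairPt E D' P := by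
  rw [Finsupp.erase_add, pairPt_add]
  congr 2
  exact Finsupp.erase_of_notMem_support (by simpa using h)

theorem pairPt_erase (E : EmbData K F) (D : Divisor K F) (P : Place K F) :
    pairPt E (D.erase P) P = pairPt E D P - D P * hD E P P := by
  have h := congrArg (fun D' => pairPt E D' P) (Finsupp.erase_add_single P D)
  simp only [pairPt_add, pairPt_single] at h
  linarith

theorem naive_sum {ι : Type*} (E : EmbData K F) (s : Finset ι) (D : ι → Divisor K F) :
    naive E (∑ i ∈ s, D i) = ∑ i ∈ s, naive E (D i) := by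
  classical
  induction s using Finset.induction_on with
  | empty => simp
  | insert a s ha ih => rw [Finset.sum_insert ha, Finset.sum_insert ha, naive_add, ih]

@[simp] theorem naive_prim (E : EmbData K F) (P : Place K F) : naive E (prim P) = ht (E.pt P) := by
  unfold naive prim
  rw [Finsupp.sum_single_index (by simp)]
  simp

theorem kapSum_add (E : EmbData K F) (D D' : Divisor K F) :
    kapSum E (D + D') = kapSum E D + kapSum E D' := by
  unfold kapSum
  rw [Finsupp.sum_add_index' (by simp) (by intro a b₁ b₂; push_cast; ring)]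

@[simp] theorem kapSum_zero (E : EmbData K F) : kapSum E 0 = 0 := by
  simp [kapSum]

/-- `2 δ(D) = (D . D) − Σ_P D(P)² hD(P, P)`. -/
theorem selfPair_eq (E : EmbData K F) (D : Divisor K F) :
    selfPair E D = pair E D D - D.sum fun P n => (n : ℝ) * n * hD E P P := by
  unfold selfPair pair
  simp only [Finsupp.sum, ← Finset.sum_sub_distrib]
  refine Finset.sum_congr rfl fun P _ => ?_
  rw [pairPt_erase]
  ring


/-! ## (ADJ) summed -/

/-- **(ADJ), summed.**  `Z_a = D + D'` with `D` reduced and disjoint from `D'`: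
`|2 δ(D) − K(D) + (D' . D) − (deg D · h(a) + N(D))| ≤ C · deg D`. -/
theorem adj_sum {E₁ E₂ : EmbData K F} (h : ADJStatement E₁ E₂) :
    ∃ C : ℝ, 0 ≤ C ∧ ∀ (a : Fin (E₂.r + 1) → K) (D D' : Divisor K F), a ≠ 0 →
      (∀ P, D P = 0 ∨ D P = 1) → E₂.Z a = D + D' → (∀ P, D P ≠ 0 → D' P = 0) →
      |2 * delta E₁ D - kapSum E₁ D + pair E₁ D' D
          - ((Divisor.degree D : ℤ) * ht a + naive E₂ D)| ≤ C * (Divisor.degree D : ℤ) := by
  obtain ⟨C, hC⟩ := h
  refine ⟨max C 0, le_max_right _ _, fun a D D' ha hred hZ hdisj => ?_⟩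
  have hsum : 2 * delta E₁ D - kapSum E₁ D + pair E₁ D' D
          - ((Divisor.degree D : ℤ) * ht a + naive E₂ D) =
      D.sum fun P n => (n : ℝ) *
        (pairPt E₁ ((E₂.Z a).erase P) P - kap E₁ P - ht a - ht (E₂.pt P)) := by
    have h2 : 2 * delta E₁ D = selfPair E₁ D := by unfold delta; ring
    have h3 : (D.sum fun P n => (n : ℝ) *
        (pairPt E₁ ((E₂.Z a).erase P) P - kap E₁ P - ht a - ht (E₂.pt P))) =
        D.sum fun P n => (n : ℝ) *
        (pairPt E₁ (D.erase P) P + pairPt E₁ D' P - kap E₁ P - ht a - ht (E₂.pt P)) := by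
      unfold Finsupp.sum
      refine Finset.sum_congr rfl fun P hP => ?_
      have hP0 : D P ≠ 0 := Finsupp.mem_support_iff.mp hP
      dsimp only
      rw [hZ, pairPt_erase_add E₁ (hdisj P hP0)]
    rw [h2, h3, degree_cast_eq_sum]
    unfold selfPair kapSum pair naive
    simp only [Finsupp.sum, Finset.sum_mul, mul_sub, mul_add, Finset.sum_sub_distrib,
      Finset.sum_add_distrib]
    ring
  rw [hsum, degree_cast_eq_sum, Finsupp.sum, Finsupp.sum, Finset.mul_sum]
  refine (Finset.abs_sum_le_sum_abs _ _).trans (Finset.sum_le_sum fun P hP => ?_)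
  have hP0 : D P ≠ 0 := Finsupp.mem_support_iff.mp hP
  have hP1 : D P = 1 := (hred P).resolve_left hP0
  have hZP : E₂.Z a P = 1 := by
    rw [hZ, Finsupp.add_apply, hP1, hdisj P hP0]
    rfl
  rw [hP1]
  simp only [Int.cast_one, one_mul, mul_one]
  exact (hC a P ha hZP).trans (le_max_left _ _)

/-! ## (VDM) in terms of `naive` and `delta` -/

theorem sum_lt_eq_half {d : ℕ} (f : Fin d → Fin d → ℝ) (hf : ∀ i j, f i j = f j i) :
    (∑ i, ∑ j, if i < j then f i j else 0) = ((∑ i, ∑ j, f i j) - ∑ i, f i i) / 2 := by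
  have h1 : ∀ i j, f i j = (if i < j then f i j else 0) + (if j < i then f i j else 0)
      + (if i = j then f i j else 0) := by
    intro i j
    rcases lt_trichotomy i j with h | h | h
    · simp [h, not_lt.mpr h.le, h.ne]
    · subst h
      simp
    · simp [h, not_lt.mpr h.le, h.ne']
  have h2 : (∑ i, ∑ j, f i j) = (∑ i, ∑ j, if i < j then f i j else 0)
      + (∑ i, ∑ j, if j < i then f i j else 0) + ∑ i, ∑ j, if i = j then f i j else 0 := by
    rw [← Finset.sum_add_distrib, ← Finset.sum_add_distrib]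
    refine Finset.sum_congr rfl fun i _ => ?_
    rw [← Finset.sum_add_distrib, ← Finset.sum_add_distrib]
    exact Finset.sum_congr rfl fun j _ => h1 i j
  have h3 : (∑ i, ∑ j, if j < i then f i j else 0) = ∑ i, ∑ j, if i < j then f i j else 0 := by
    rw [Finset.sum_comm]
    refine Finset.sum_congr rfl fun i _ => Finset.sum_congr rfl fun j _ => ?_
    rw [hf j i]
  have h4 : (∑ i, ∑ j, if i = j then f i j else 0) = ∑ i, f i i := by
    refine Finset.sum_congr rfl fun i _ => ?_
    simp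
  rw [h2, h3, h4]
  ring

theorem pairPt_sum {ι : Type*} (E : EmbData K F) (s : Finset ι) (D : ι → Divisor K F)
    (P : Place K F) : pairPt E (∑ i ∈ s, D i) P = ∑ i ∈ s, pairPt E (D i) P := by
  classical
  induction s using Finset.induction_on with
  | empty => simp
  | insert a s ha ih => rw [Finset.sum_insert ha, Finset.sum_insert ha, pairPt_add, ih]

theorem pair_sum_right {ι : Type*} (E : EmbData K F) (s : Finset ι) (D : Divisor K F)
    (D' : ι → Divisor K F) : pair E D (∑ i ∈ s, D' i) = ∑ i ∈ s, pair E D (D' i) := by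
  classical
  induction s using Finset.induction_on with
  | empty => simp
  | insert a s ha ih => rw [Finset.sum_insert ha, Finset.sum_insert ha, pair_add_right, ih]

theorem sumPrim_apply {d : ℕ} (P : Fin d → Place K F) (hP : Function.Injective P) (i : Fin d) :
    H980.sumPrim P (P i) = 1 := by
  rw [H980.sumPrim_eq_add P i, Finsupp.add_apply, H980.sum_erase_apply_self P hP i]
  simp

theorem sumPrim_apply_of_notMem {d : ℕ} (P : Fin d → Place K F) {Q : Place K F}
    (hQ : ∀ i, P i ≠ Q) : H980.sumPrim P Q = 0 := by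
  unfold H980.sumPrim
  rw [Finsupp.finsetSum_apply]
  exact Finset.sum_eq_zero fun i _ => prim_apply_of_ne (fun h => hQ i h.symm)

/-- `Σ_Q D(Q) g(Q) = Σ_i g(P_i)` for `D = P₁ + … + P_d`. -/
theorem sumPrim_sum {d : ℕ} (P : Fin d → Place K F) (g : Place K F → ℝ) :
    ((H980.sumPrim P).sum fun Q n => (n : ℝ) * g Q) = ∑ i, g (P i) := by
  unfold H980.sumPrim
  rw [← Finsupp.sum_finsetSum_index (by simp) (by intro a b₁ b₂; push_cast; ring)]
  refine Finset.sum_congr rfl fun i _ => ?_
  unfold prim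
  rw [Finsupp.sum_single_index (by simp)]
  simp

theorem naive_sumPrim (E : EmbData K F) {d : ℕ} (P : Fin d → Place K F) :
    naive E (H980.sumPrim P) = ∑ i, ht (E.pt (P i)) :=
  sumPrim_sum P fun Q => ht (E.pt Q)

theorem kapSum_sumPrim (E : EmbData K F) {d : ℕ} (P : Fin d → Place K F) :
    kapSum E (H980.sumPrim P) = ∑ i, kap E (P i) :=
  sumPrim_sum P fun Q => kap E Q

theorem delta_sumPrim (E : EmbData K F) {d : ℕ} (P : Fin d → Place K F)
    (hP : Function.Injective P) :
    delta E (H980.sumPrim P) = ∑ i, ∑ j, if i < j then hD E (P i) (P j) else 0 := by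
  rw [sum_lt_eq_half (fun i j => hD E (P i) (P j)) (fun i j => hD_symm E _ _)]
  unfold delta
  congr 1
  rw [selfPair_eq]
  congr 1
  · -- the full pairing
    unfold pair
    rw [sumPrim_sum P fun Q => pairPt E (H980.sumPrim P) Q]
    rw [Finset.sum_comm]
    refine Finset.sum_congr rfl fun j _ => ?_
    unfold H980.sumPrim
    rw [pairPt_sum]
    simp
  · -- the diagonal
    have h1 : ((H980.sumPrim P).sum fun Q n => (n : ℝ) * n * hD E Q Q) =
        (H980.sumPrim P).sum fun Q n => (n : ℝ) * hD E Q Q := by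
      unfold Finsupp.sum
      refine Finset.sum_congr rfl fun Q hQ => ?_
      have hQ0 : H980.sumPrim P Q ≠ 0 := Finsupp.mem_support_iff.mp hQ
      have : ∃ i, P i = Q := by
        by_contra hcon
        exact hQ0 (sumPrim_apply_of_notMem P fun i hi => hcon ⟨i, hi⟩)
      obtain ⟨i, rfl⟩ := this
      rw [sumPrim_apply P hP i]
      simp
    rw [h1, sumPrim_sum P fun Q => hD E Q Q]

/-- **(VDM)** for `D = P₁ + … + P_d` (distinct points, any enumeration):
`h(pt P₁ ∧ … ∧ pt P_d) ≤ N(D) − δ(D) + C`. -/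
theorem vdm_enum {E₁ E₂ : EmbData K F} {d₀ : ℕ} (h : VDMStatement E₁ E₂ d₀) :
    ∃ C : ℝ, ∀ (d : ℕ) (P : Fin d → Place K F), d ≤ d₀ → Function.Injective P →
      ht (plucker fun i => E₂.pt (P i)) ≤
        naive E₂ (H980.sumPrim P) - delta E₁ (H980.sumPrim P) + C := by
  obtain ⟨C, hC⟩ := h
  refine ⟨C, fun d P hd hP => ?_⟩
  rw [naive_sumPrim, delta_sumPrim E₁ P hP]
  exact hC d P hd hP

/-- A reduced effective divisor is the sum of the points of its support. -/
theorem eq_sumPrim_of_reduced (D : Divisor K F) (hred : ∀ P, D P = 0 ∨ D P = 1) :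
    D = H980.sumPrim fun i : Fin D.support.card => (D.support.equivFin.symm i : Place K F) := by
  ext Q
  by_cases hQ : D Q = 0
  · rw [hQ, sumPrim_apply_of_notMem]
    intro i h
    have := (D.support.equivFin.symm i).2
    rw [h] at this
    exact (Finsupp.mem_support_iff.mp this) hQ
  · have hQ1 : D Q = 1 := (hred Q).resolve_left hQ
    have hmem : Q ∈ D.support := Finsupp.mem_support_iff.mpr hQ
    have hinj : Function.Injective
        fun i : Fin D.support.card => (D.support.equivFin.symm i : Place K F) :=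
      fun i j hij => D.support.equivFin.symm.injective (Subtype.ext hij)
    have := sumPrim_apply _ hinj (D.support.equivFin ⟨Q, hmem⟩)
    simp only [Equiv.symm_apply_apply] at this
    rw [hQ1, this]

/-- **(VDM)** for a reduced divisor with at most `d₀` points. -/
theorem vdm_sum {E₁ E₂ : EmbData K F} {d₀ : ℕ} (h : VDMStatement E₁ E₂ d₀) :
    ∃ C : ℝ, ∀ D : Divisor K F, (∀ P, D P = 0 ∨ D P = 1) → D.support.card ≤ d₀ →
      plHt E₂ D ≤ naive E₂ D - delta E₁ D + C := by
  obtain ⟨C, hC⟩ := vdm_enum h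
  refine ⟨C, fun D hred hcard => ?_⟩
  have hinj : Function.Injective
      fun i : Fin D.support.card => (D.support.equivFin.symm i : Place K F) :=
    fun i j hij => D.support.equivFin.symm.injective (Subtype.ext hij)
  have := hC D.support.card _ hcard hinj
  rw [← eq_sumPrim_of_reduced D hred] at this
  exact this

/-- For a reduced effective divisor the support has `deg` points. -/
theorem card_support_of_reduced (D : Divisor K F) (hred : ∀ P, D P = 0 ∨ D P = 1) :
    (D.support.card : ℤ) = Divisor.degree D := by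
  rw [degree_eq_sum, Finsupp.sum]
  have h1 : ∀ P ∈ D.support, D P = (1 : ℤ) := fun P hP =>
    (hred P).resolve_left (Finsupp.mem_support_iff.mp hP)
  rw [Finset.sum_congr rfl h1]
  simp


/-! ## (BEZ): a pencil of hyperplane sections -/

theorem pt_ne_zero (E : EmbData K F) (P : Place K F) : E.pt P ≠ 0 := by
  have hli := H980.linearIndependent_pt E (d := 1) (fun _ => P)
    (Function.injective_of_subsingleton _) (by
      have := E.hm
      rw [genusFF_eq_genusR]
      omega)
  exact hli.ne_zero 0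

theorem pos_of_Z_ne_zero (E : EmbData K F) {a : Fin (E.r + 1) → K} {P : Place K F}
    (h : E.Z a P ≠ 0) : 0 < hypDiv E.vinf E.m E.x a P := by
  have h1 := (Finsupp.le_def.mp (E.Z_nonneg a)) P
  have h2 : E.Z a P = hypDiv E.vinf E.m E.x a P := rfl
  rw [h2] at h h1
  simp only [Finsupp.coe_zero, Pi.zero_apply] at h1
  omega

theorem Z_ne_zero_of_dot (E : EmbData K F) {a : Fin (E.r + 1) → K} (ha : a ≠ 0)
    {P : Place K F} (h : dot a (E.pt P) = 0) : E.Z a P ≠ 0 := by
  have h1 := (E.pt_spec P a ha).mp h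
  have h2 : E.Z a P = hypDiv E.vinf E.m E.x a P := rfl
  rw [h2]
  omega

/-- A form which vanishes at none of finitely many given points. -/
theorem exists_dot_ne_zero (E : EmbData K F) (S : Finset (Place K F)) :
    ∃ b : Fin (E.r + 1) → K, ∀ P ∈ S, dot b (E.pt P) ≠ 0 := by
  classical
  let φ : Place K F → ((Fin (E.r + 1) → K) →ₗ[K] K) := fun P =>
    ∑ i, (E.pt P i) • (LinearMap.proj i : (Fin (E.r + 1) → K) →ₗ[K] K)
  have hφ : ∀ P b, φ P b = dot b (E.pt P) := by
    intro P b
    simp [φ, dot, dotProduct, mul_comm]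
  have htop : (⊤ : Subspace K (Fin (E.r + 1) → K)) ∉ S.image fun P => LinearMap.ker (φ P) := by
    intro hmem
    obtain ⟨P, _, hP⟩ := Finset.mem_image.mp hmem
    obtain ⟨i, hi⟩ := Function.ne_iff.mp (pt_ne_zero E P)
    have hmem' : (Pi.single i 1 : Fin (E.r + 1) → K) ∈ LinearMap.ker (φ P) := by
      rw [hP]
      trivial
    rw [LinearMap.mem_ker, hφ] at hmem'
    apply hi
    simpa [dot] using hmem'
  have hne := Subspace.biUnion_ne_univ_of_top_notMem htop
  obtain ⟨b, hb⟩ := (Set.ne_univ_iff_exists_notMem _).mp hne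
  refine ⟨b, fun P hP h0 => hb ?_⟩
  simp only [Set.mem_iUnion]
  refine ⟨LinearMap.ker (φ P), Finset.mem_image_of_mem _ hP, ?_⟩
  rw [SetLike.mem_coe, LinearMap.mem_ker, hφ]
  exact h0

/-- **A pencil of hyperplane sections**: more than `n` nonzero forms with pairwise disjoint
hyperplane sections. -/
theorem exists_pencil_family (E : EmbData K F) (n : ℕ) :
    ∃ B : Finset (Fin (E.r + 1) → K), n < B.card ∧ (∀ b ∈ B, b ≠ 0) ∧
      ∀ b ∈ B, ∀ b' ∈ B, b ≠ b' → ∀ P, E.Z b P ≠ 0 → E.Z b' P = 0 := by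
  classical
  set a : Fin (E.r + 1) → K := Pi.single 0 1 with ha_def
  have ha : a ≠ 0 := by
    intro h
    have := congrFun h 0
    simp [ha_def] at this
  obtain ⟨b, hb⟩ := exists_dot_ne_zero E (E.Z a).support
  have hkey : ∀ P, dot a (E.pt P) = 0 → dot b (E.pt P) ≠ 0 := by
    intro P hP
    apply hb
    rw [Finsupp.mem_support_iff]
    exact Z_ne_zero_of_dot E ha hP
  have hZne : (E.Z a).support.Nonempty := by
    by_contra hcon
    rw [Finset.not_nonempty_iff_eq_empty, Finsupp.support_eq_empty] at hcon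
    have hdeg := E.degree_Z ha
    rw [hcon, map_zero] at hdeg
    have := E.hm
    omega
  obtain ⟨P₀, hP₀⟩ := hZne
  have hP₀' : dot a (E.pt P₀) = 0 :=
    (E.pt_spec P₀ a ha).mpr (pos_of_Z_ne_zero E (Finsupp.mem_support_iff.mp hP₀))
  have hb0 : b ≠ 0 := by
    rintro rfl
    exact hb P₀ hP₀ (by simp [dot])
  let f : ℕ → (Fin (E.r + 1) → K) := fun c => a + (c : K) • b
  have hf_inj : Function.Injective f := by
    intro c c' h
    have h0 : (c : K) • b = (c' : K) • b := add_left_cancel h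
    have h1 : ((c : K) - c') • b = 0 := by
      rw [sub_smul, h0, sub_self]
    rcases smul_eq_zero.mp h1 with h2 | h2
    · exact_mod_cast sub_eq_zero.mp h2
    · exact absurd h2 hb0
  have hdot : ∀ (c : ℕ) P, dot (f c) (E.pt P) = dot a (E.pt P) + c * dot b (E.pt P) := by
    intro c P
    simp [f, dot, add_dotProduct, smul_dotProduct]
  have hf0 : ∀ c, f c ≠ 0 := by
    intro c h
    have h1 := hdot c P₀
    rw [h, hP₀'] at h1
    have h2 : (c : K) * dot b (E.pt P₀) = 0 := by
      rw [zero_add] at h1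
      rw [← h1]
      simp [dot]
    rcases mul_eq_zero.mp h2 with h3 | h3
    · have hc : c = 0 := by exact_mod_cast h3
      apply ha
      rw [← h]
      simp [f, hc]
    · exact hb P₀ hP₀ h3
  refine ⟨(Finset.range (n + 1)).image f, ?_, ?_, ?_⟩
  · rw [Finset.card_image_of_injective _ hf_inj, Finset.card_range]
    omega
  · intro b' hb'
    obtain ⟨c, _, rfl⟩ := Finset.mem_image.mp hb'
    exact hf0 c
  · intro b₁ hb₁ b₂ hb₂ hne P hP
    obtain ⟨c₁, _, rfl⟩ := Finset.mem_image.mp hb₁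
    obtain ⟨c₂, _, rfl⟩ := Finset.mem_image.mp hb₂
    by_contra hP2
    have h1 : dot (f c₁) (E.pt P) = 0 := (E.pt_spec P _ (hf0 c₁)).mpr (pos_of_Z_ne_zero E hP)
    have h2 : dot (f c₂) (E.pt P) = 0 := (E.pt_spec P _ (hf0 c₂)).mpr (pos_of_Z_ne_zero E hP2)
    rw [hdot] at h1 h2
    have hc : (c₁ : K) ≠ c₂ := fun h => hne (by
      have : c₁ = c₂ := by exact_mod_cast h
      rw [this])
    have h3 : ((c₁ : K) - c₂) * dot b (E.pt P) = 0 := by linear_combination h1 - h2
    rcases mul_eq_zero.mp h3 with h4 | h4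
    · exact hc (sub_eq_zero.mp h4)
    · have h5 : dot a (E.pt P) = 0 := by
        rw [h4] at h1
        simpa using h1
      exact hkey P h5 h4

/-- **(BEZ)**: `|N (Z a) − m · h(a)| ≤ C`, from (E3). -/
theorem bez {E₁ E₂ : EmbData K F} (h : E3Statement E₁ E₂) :
    ∃ C : ℝ, ∀ a : Fin (E₂.r + 1) → K, a ≠ 0 →
      |naive E₂ (E₂.Z a) - E₂.m * ht a| ≤ C := by
  obtain ⟨B, hcard, hB0, hBd⟩ := exists_pencil_family E₂ E₂.m
  exact bez_of h B hB0 hBd hcard

/-! ## (GAUSS) -/

/-- **(GAUSS)** in the form used by TOP: the canonical divisor is `K₀ = Rt − c ∞`. -/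
def GaussRtStatement (E₁ : EmbData K F) (Rt : Divisor K F) (c : ℤ) : Prop :=
  ∃ C : ℝ, ∀ P : Place K F, Rt P = 0 → P ≠ E₁.vinf →
    |kap E₁ P - (pairPt E₁ Rt P - c * hD E₁ E₁.vinf P)| ≤ C

/-- (GAUSS) for the divisor `K₀ = Rt − c ∞`, as in `GAUSSStatement`. -/
theorem gaussRt_of (E₁ : EmbData K F) (Rt : Divisor K F) (c : ℤ)
    (h : ∃ C : ℝ, ∀ P : Place K F, (Rt - c • prim E₁.vinf) P = 0 →
      |kap E₁ P - pairPt E₁ (Rt - c • prim E₁.vinf) P| ≤ C) : GaussRtStatement E₁ Rt c := by
  obtain ⟨C, hC⟩ := h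
  refine ⟨C, fun P hP hPinf => ?_⟩
  have h0 : (Rt - c • prim E₁.vinf) P = 0 := by
    rw [Finsupp.sub_apply, Finsupp.smul_apply, hP, prim_apply_of_ne hPinf]
    simp
  have := hC P h0
  rwa [pairPt_sub, pairPt_zsmul, pairPt_prim] at this

/-- The distance to `∞` is the naive height: `|m · hD(∞, P) − h(a₁) − h(pt P)| ≤ C` for
`P ≠ ∞`, where `Z a₁ = m ∞`. -/
theorem hD_vinf {E₁ E₂ : EmbData K F} (h3 : E3Statement E₁ E₂)
    {a₁ : Fin (E₂.r + 1) → K} (ha₁ : a₁ ≠ 0) (hZ₁ : E₂.Z a₁ = E₂.m • prim E₂.vinf) :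
    ∃ C : ℝ, ∀ P : Place K F, P ≠ E₂.vinf →
      |(E₂.m : ℝ) * hD E₁ E₂.vinf P - ht a₁ - ht (E₂.pt P)| ≤ C := by
  obtain ⟨C, hC⟩ := h3
  refine ⟨C, fun P hP => ?_⟩
  have hZP : E₂.Z a₁ P = 0 := by
    rw [hZ₁, Finsupp.smul_apply, prim_apply_of_ne hP]
    simp
  have := hC a₁ P ha₁ (dot_ne_zero_of_Z_eq_zero E₂ ha₁ hZP)
  rwa [hZ₁, pairPt_nsmul, pairPt_prim] at this

/-- **(GAUSS), summed**, in package form:
`|K(D) − ((Rt . D) − (c / m) N(D))| ≤ C · deg D` for effective `D` avoiding `Rt` and `∞`. -/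
theorem gauss_sum {E₁ E₂ : EmbData K F} (hv : E₁.vinf = E₂.vinf) (h3 : E3Statement E₁ E₂)
    {a₁ : Fin (E₂.r + 1) → K} (ha₁ : a₁ ≠ 0) (hZ₁ : E₂.Z a₁ = E₂.m • prim E₂.vinf)
    {Rt : Divisor K F} {c : ℤ} (hG : GaussRtStatement E₁ Rt c) :
    ∃ C : ℝ, 0 ≤ C ∧ ∀ D : Divisor K F, 0 ≤ D → (∀ P, D P ≠ 0 → Rt P = 0 ∧ P ≠ E₂.vinf) →
      |kapSum E₁ D - (pair E₁ Rt D - ((c : ℝ) / E₂.m) * naive E₂ D)| ≤
        C * (Divisor.degree D : ℤ) := by
  obtain ⟨C₃, hC₃⟩ := hD_vinf h3 ha₁ hZ₁
  obtain ⟨CG, hCG⟩ := hG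
  have hm : (0 : ℝ) < E₂.m := by
    have := E₂.hm
    have h1 : 0 < E₂.m := by omega
    exact_mod_cast h1
  set Cp : ℝ := max CG 0 + |(c : ℝ)| * ((max C₃ 0 + ht a₁) / E₂.m) with hCp
  have hCp0 : 0 ≤ Cp := by
    have h1 : 0 ≤ ht a₁ := ht_nonneg a₁
    positivity
  have hpt : ∀ P : Place K F, Rt P = 0 → P ≠ E₂.vinf →
      |kap E₁ P - (pairPt E₁ Rt P - ((c : ℝ) / E₂.m) * ht (E₂.pt P))| ≤ Cp := by
    intro P hP hPinf
    have h1 := hC₃ P hPinf
    have h2 := hCG P hP (by rw [hv]; exact hPinf)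
    rw [hv] at h2
    have h4 : |hD E₁ E₂.vinf P - ht (E₂.pt P) / E₂.m| ≤ (max C₃ 0 + ht a₁) / E₂.m := by
      have h5 : hD E₁ E₂.vinf P - ht (E₂.pt P) / E₂.m =
          ((E₂.m : ℝ) * hD E₁ E₂.vinf P - ht a₁ - ht (E₂.pt P) + ht a₁) / E₂.m := by
        field_simp
        ring
      rw [h5, abs_div, abs_of_pos hm]
      refine div_le_div_of_nonneg_right ?_ hm.le
      refine (abs_add_le _ _).trans ?_
      rw [abs_of_nonneg (ht_nonneg a₁)]
      have := le_max_left C₃ 0
      linarith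
    have h6 : kap E₁ P - (pairPt E₁ Rt P - ((c : ℝ) / E₂.m) * ht (E₂.pt P)) =
        (kap E₁ P - (pairPt E₁ Rt P - c * hD E₁ E₂.vinf P))
          - c * (hD E₁ E₂.vinf P - ht (E₂.pt P) / E₂.m) := by
      field_simp
      ring
    rw [h6]
    refine (abs_sub _ _).trans ?_
    rw [abs_mul]
    have := le_max_left CG 0
    have h7 : |(c : ℝ)| * |hD E₁ E₂.vinf P - ht (E₂.pt P) / E₂.m| ≤
        |(c : ℝ)| * ((max C₃ 0 + ht a₁) / E₂.m) :=
      mul_le_mul_of_nonneg_left h4 (abs_nonneg _)
    rw [hCp]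
    linarith
  refine ⟨Cp, hCp0, fun D hD hdisj => ?_⟩
  have hsum : kapSum E₁ D - (pair E₁ Rt D - ((c : ℝ) / E₂.m) * naive E₂ D) =
      D.sum fun P n => (n : ℝ) *
        (kap E₁ P - (pairPt E₁ Rt P - ((c : ℝ) / E₂.m) * ht (E₂.pt P))) := by
    have hterm : ∀ P : Place K F, ((D P : ℤ) : ℝ) *
        (kap E₁ P - (pairPt E₁ Rt P - ((c : ℝ) / E₂.m) * ht (E₂.pt P))) =
        (D P : ℝ) * kap E₁ P - ((D P : ℝ) * pairPt E₁ Rt P
          - ((c : ℝ) / E₂.m) * ((D P : ℝ) * ht (E₂.pt P))) := fun P => by ring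
    unfold kapSum pair naive
    simp only [Finsupp.sum, hterm, Finset.sum_sub_distrib, Finset.mul_sum]
  rw [hsum, degree_cast_eq_sum, Finsupp.sum, Finsupp.sum, Finset.mul_sum]
  refine (Finset.abs_sum_le_sum_abs _ _).trans (Finset.sum_le_sum fun P hP => ?_)
  have hP0 : D P ≠ 0 := Finsupp.mem_support_iff.mp hP
  have hnn : (0 : ℝ) ≤ (D P : ℝ) := by
    have := (Finsupp.le_def.mp hD) P
    exact_mod_cast this
  rw [abs_mul, abs_of_nonneg hnn, mul_comm Cp]
  exact mul_le_mul_of_nonneg_left (hpt P (hdisj P hP0).1 (hdisj P hP0).2) hnn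

end Fermat.Agent.S17.H35
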