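import Fermat.Agent.S17.H17.HContract
import Fermat.Agent.S17.H380.AbsBasic

/-!
# S17 / tower H, TOP-GLUE (helper35, subtask 606): the package axioms from the CONTRACT

Generic part (any `K`, `F` with `FF1 K F`, any embeddings `E₁`, `E₂`): calculus of the pairings
`pairPt`, `pair`, `naive` of `HContract` (additivity, symmetry) and the summed forms of the
contract statements:

* `e3_sum`   : `E3Statement` summed over an effective divisor disjoint from `Z_a`;
* `bez_of`   : (BEZ) `|N (Z a) - m · ht a| ≤ C` from (E3) twice, symmetry of the pairing and a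
               finite family of more than `m` hyperplane sections with pairwise disjoint supports.
-/

set_option autoImplicit false
set_option linter.unusedSectionVars false

noncomputable section

open AlgebraicCurve

namespace Fermat.Agent.S17.H35

open Fermat.Agent.Lib.RR Fermat.Agent.S17.HWall Fermat.Agent.S17.HContract

variable {K F : Type*} [Field K] [CharZero K] [Field F] [Algebra K F] [FF1 K F]

/-! ## Heights -/

/-- The absolute height is even. -/
theorem ht_neg {ι : Type*} [Finite ι] (y : ι → K) : ht (fun i => - y i) = ht y := by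
  have hfun : (fun i => - y i) = (-1 : K) • y := by
    funext i
    simp
  by_cases hy : ∀ i, IsIntegral ℚ (y i)
  · rw [hfun]
    exact H380.absLogHeight_smul y hy (by simp) (isIntegral_one (R := ℚ)).neg
  · rw [ht, ht, H380.absLogHeight_of_not_isIntegral y hy,
      H380.absLogHeight_of_not_isIntegral]
    intro h
    apply hy
    intro i
    have := (h i).neg
    simpa using this

theorem wedge_swap {n : ℕ} (y z : Fin n → K) : wedge z y = fun p => - wedge y z p := by
  funext p
  simp only [wedge]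
  ring

/-- The diagonal height is symmetric. -/
theorem hD_symm (E : EmbData K F) (A P : Place K F) : hD E A P = hD E P A := by
  unfold hD
  rw [wedge_swap (E.pt P) (E.pt A), ht_neg]
  ring

theorem ht_nonneg {ι : Type*} [Finite ι] (y : ι → K) : 0 ≤ ht y := H380.absLogHeight_nonneg y

/-! ## Degree -/

/-- All places have degree one: the degree is the sum of the multiplicities. -/
theorem degree_eq_sum (D : Divisor K F) : Divisor.degree D = D.sum fun _ n => n := by
  induction D using Finsupp.induction_linear with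
  | zero => simp
  | add D D' hD hD' =>
    rw [map_add, hD, hD', Finsupp.sum_add_index' (by simp) (by simp)]
  | single v n =>
    rw [Divisor.degree_single, FF1.deg_eq_one (K := K) (F := F) v]
    simp

theorem degree_cast_eq_sum (D : Divisor K F) :
    ((Divisor.degree D : ℤ) : ℝ) = D.sum fun _ n => (n : ℝ) := by
  rw [degree_eq_sum, Finsupp.sum, Finsupp.sum]
  push_cast
  rfl

theorem degree_nonneg {D : Divisor K F} (hD : 0 ≤ D) : 0 ≤ Divisor.degree D := by
  rw [degree_eq_sum]
  exact Finset.sum_nonneg fun P _ => by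
    have := (Finsupp.le_def.mp hD) P
    simpa using this

/-! ## The pairings -/

@[simp] theorem pairPt_zero (E : EmbData K F) (P : Place K F) : pairPt E 0 P = 0 := by
  simp [pairPt]

theorem pairPt_add (E : EmbData K F) (D D' : Divisor K F) (P : Place K F) :
    pairPt E (D + D') P = pairPt E D P + pairPt E D' P := by
  unfold pairPt
  rw [Finsupp.sum_add_index' (by simp) (by intro a b₁ b₂; push_cast; ring)]

@[simp] theorem pairPt_single (E : EmbData K F) (A : Place K F) (n : ℤ) (P : Place K F) :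
    pairPt E (Finsupp.single A n) P = n * hD E A P := by
  unfold pairPt
  rw [Finsupp.sum_single_index (by simp)]

theorem pairPt_nsmul (E : EmbData K F) (k : ℕ) (D : Divisor K F) (P : Place K F) :
    pairPt E (k • D) P = k * pairPt E D P := by
  induction k with
  | zero => simp
  | succ k ih => rw [succ_nsmul, pairPt_add, ih]; push_cast; ring

@[simp] theorem pair_zero_right (E : EmbData K F) (D : Divisor K F) : pair E D 0 = 0 := by
  simp [pair]

@[simp] theorem pair_zero_left (E : EmbData K F) (D : Divisor K F) : pair E 0 D = 0 := by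
  simp [pair, Finsupp.sum]

theorem pair_add_right (E : EmbData K F) (D D₁ D₂ : Divisor K F) :
    pair E D (D₁ + D₂) = pair E D D₁ + pair E D D₂ := by
  unfold pair
  rw [Finsupp.sum_add_index' (by simp) (by intro a b₁ b₂; push_cast; ring)]

theorem pair_add_left (E : EmbData K F) (D₁ D₂ D : Divisor K F) :
    pair E (D₁ + D₂) D = pair E D₁ D + pair E D₂ D := by
  unfold pair
  simp only [pairPt_add, mul_add]
  rw [Finsupp.sum_add]

@[simp] theorem pair_single_right (E : EmbData K F) (D : Divisor K F) (P : Place K F) (n : ℤ) :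
    pair E D (Finsupp.single P n) = n * pairPt E D P := by
  unfold pair
  rw [Finsupp.sum_single_index (by simp)]

/-- The pairing is symmetric. -/
theorem pair_symm (E : EmbData K F) (D D' : Divisor K F) : pair E D D' = pair E D' D := by
  unfold pair pairPt
  simp only [Finsupp.sum, Finset.mul_sum]
  rw [Finset.sum_comm]
  refine Finset.sum_congr rfl fun A _ => Finset.sum_congr rfl fun P _ => ?_
  rw [hD_symm E A P]
  ring

@[simp] theorem naive_zero (E : EmbData K F) : naive E 0 = 0 := by
  simp [naive]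

theorem naive_add (E : EmbData K F) (D D' : Divisor K F) :
    naive E (D + D') = naive E D + naive E D' := by
  unfold naive
  rw [Finsupp.sum_add_index' (by simp) (by intro a b₁ b₂; push_cast; ring)]

theorem naive_nonneg (E : EmbData K F) {D : Divisor K F} (hD : 0 ≤ D) : 0 ≤ naive E D := by
  unfold naive
  refine Finset.sum_nonneg fun P _ => mul_nonneg ?_ (ht_nonneg _)
  have := (Finsupp.le_def.mp hD) P
  exact_mod_cast this

/-! ## (E3) summed over a divisor -/

/-- If `P` is not in the hyperplane section `Z_a`, the form `a` does not vanish at `pt P`. -/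
theorem dot_ne_zero_of_Z_eq_zero (E : EmbData K F) {a : Fin (E.r + 1) → K} (ha : a ≠ 0)
    {P : Place K F} (hP : E.Z a P = 0) : dot a (E.pt P) ≠ 0 := by
  intro h
  have := (E.pt_spec P a ha).mp h
  rw [EmbData.Z] at hP
  omega

/-- **(E3), summed.**  For an effective divisor `D` whose support is disjoint from `Z_a`:
`|(Z_a . D) − (deg D · h(a) + N(D))| ≤ C · deg D`. -/
theorem e3_sum {E₁ E₂ : EmbData K F} (h : E3Statement E₁ E₂) :
    ∃ C : ℝ, 0 ≤ C ∧ ∀ (a : Fin (E₂.r + 1) → K) (D : Divisor K F), a ≠ 0 → 0 ≤ D →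
      (∀ P, D P ≠ 0 → E₂.Z a P = 0) →
      |pair E₁ (E₂.Z a) D - ((Divisor.degree D : ℤ) * ht a + naive E₂ D)| ≤
        C * (Divisor.degree D : ℤ) := by
  obtain ⟨C, hC⟩ := h
  refine ⟨max C 0, le_max_right _ _, fun a D ha hD hdisj => ?_⟩
  have hsum : pair E₁ (E₂.Z a) D - ((Divisor.degree D : ℤ) * ht a + naive E₂ D) =
      D.sum fun P n => (n : ℝ) * (pairPt E₁ (E₂.Z a) P - ht a - ht (E₂.pt P)) := by
    rw [degree_cast_eq_sum]
    unfold pair naive
    simp only [Finsupp.sum, Finset.sum_mul, mul_sub, Finset.sum_sub_distrib]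
    ring
  rw [hsum, degree_cast_eq_sum, Finsupp.sum, Finsupp.sum, Finset.mul_sum]
  refine (Finset.abs_sum_le_sum_abs _ _).trans (Finset.sum_le_sum fun P hP => ?_)
  have hP0 : D P ≠ 0 := Finsupp.mem_support_iff.mp hP
  have hnn : (0 : ℝ) ≤ (D P : ℝ) := by
    have := (Finsupp.le_def.mp hD) P
    exact_mod_cast this
  rw [abs_mul, abs_of_nonneg hnn, mul_comm (max C 0)]
  refine mul_le_mul_of_nonneg_left ?_ hnn
  exact (hC a P ha (dot_ne_zero_of_Z_eq_zero E₂ ha (hdisj P hP0))).trans (le_max_left _ _)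

/-! ## (BEZ) -/

/-- The support of an effective divisor has at most `deg` points. -/
theorem card_support_le_degree {D : Divisor K F} (hD : 0 ≤ D) :
    (D.support.card : ℤ) ≤ Divisor.degree D := by
  rw [degree_eq_sum, Finsupp.sum]
  have h1 : ∀ P ∈ D.support, (1 : ℤ) ≤ D P := by
    intro P hP
    have h0 : D P ≠ 0 := Finsupp.mem_support_iff.mp hP
    have h2 : (0 : ℤ) ≤ D P := by
      have := (Finsupp.le_def.mp hD) P
      simpa using this
    omega
  calc (D.support.card : ℤ) = ∑ _P ∈ D.support, (1 : ℤ) := by simp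
    _ ≤ ∑ P ∈ D.support, D P := Finset.sum_le_sum h1

/-- Among more than `deg D` divisors with pairwise disjoint supports one is disjoint from the
effective divisor `D`. -/
theorem exists_disjoint_of_card_lt {ι : Type*} (B : Finset ι) (Z : ι → Divisor K F)
    (hBd : ∀ b ∈ B, ∀ b' ∈ B, b ≠ b' → ∀ P, Z b P ≠ 0 → Z b' P = 0)
    {D : Divisor K F} (hD : 0 ≤ D) (hcard : Divisor.degree D < B.card) :
    ∃ b ∈ B, ∀ P, Z b P ≠ 0 → D P = 0 := by
  classical
  by_contra hcon
  simp only [not_exists, not_and, not_forall] at hcon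
  -- every `b ∈ B` meets `D`
  have : Nonempty (Place K F) := FF1.nonempty_place (K := K) (F := F)
  have hcon' : ∀ b ∈ B, ∃ P, Z b P ≠ 0 ∧ D P ≠ 0 := fun b hb => by
    obtain ⟨P, hP1, hP2⟩ := hcon b hb
    exact ⟨P, hP1, hP2⟩
  choose! f hf using hcon'
  have hmaps : ∀ b ∈ B, f b ∈ D.support := fun b hb =>
    Finsupp.mem_support_iff.mpr (hf b hb).2
  have hinj : Set.InjOn f (B : Set ι) := by
    intro b hb b' hb' hbb'
    by_contra hne
    have h1 := (hf b hb).1
    have h2 := (hf b' hb').1
    rw [← hbb'] at h2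
    exact h2 (hBd b hb b' hb' hne (f b) h1)
  have hle : B.card ≤ D.support.card := Finset.card_le_card_of_injOn f hmaps hinj
  have := card_support_le_degree hD
  omega

/-- **(BEZ)**: the naive height of a hyperplane section is `m · h(a) + O(1)`; from (E3) applied
twice, the symmetry of the pairing, and a family of more than `m` hyperplane sections with
pairwise disjoint supports. -/
theorem bez_of {E₁ E₂ : EmbData K F} (h : E3Statement E₁ E₂)
    (B : Finset (Fin (E₂.r + 1) → K)) (hB0 : ∀ b ∈ B, b ≠ 0)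
    (hBd : ∀ b ∈ B, ∀ b' ∈ B, b ≠ b' → ∀ P, E₂.Z b P ≠ 0 → E₂.Z b' P = 0)
    (hcard : E₂.m < B.card) :
    ∃ C : ℝ, ∀ a : Fin (E₂.r + 1) → K, a ≠ 0 →
      |naive E₂ (E₂.Z a) - E₂.m * ht a| ≤ C := by
  obtain ⟨C₀, hC₀, hC⟩ := e3_sum h
  refine ⟨2 * C₀ * E₂.m + ∑ b ∈ B, |naive E₂ (E₂.Z b) - E₂.m * ht b|, fun a ha => ?_⟩
  have hdeg : ∀ c : Fin (E₂.r + 1) → K, c ≠ 0 → ((Divisor.degree (E₂.Z c) : ℤ) : ℝ) = E₂.m := by
    intro c hc
    rw [E₂.degree_Z hc]
    simp
  obtain ⟨b, hb, hdisj⟩ := exists_disjoint_of_card_lt B (fun b => E₂.Z b) hBd (E₂.Z_nonneg a)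
    (by rw [E₂.degree_Z ha]; exact_mod_cast hcard)
  have hb0 := hB0 b hb
  have h1 := hC a (E₂.Z b) ha (E₂.Z_nonneg b) hdisj
  have h2 := hC b (E₂.Z a) hb0 (E₂.Z_nonneg a) (fun P hP => by
    by_contra hcon
    exact hP (hdisj P hcon))
  rw [hdeg b hb0] at h1
  rw [hdeg a ha, pair_symm] at h2
  have h3 : |naive E₂ (E₂.Z b) - E₂.m * ht b| ≤ ∑ b ∈ B, |naive E₂ (E₂.Z b) - E₂.m * ht b| :=
    Finset.single_le_sum (f := fun b => |naive E₂ (E₂.Z b) - E₂.m * ht b|)
      (fun _ _ => abs_nonneg _) hb
  have h4 : naive E₂ (E₂.Z a) - E₂.m * ht a =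
      (naive E₂ (E₂.Z b) - E₂.m * ht b)
        + (pair E₁ (E₂.Z a) (E₂.Z b) - (E₂.m * ht a + naive E₂ (E₂.Z b)))
        - (pair E₁ (E₂.Z a) (E₂.Z b) - (E₂.m * ht b + naive E₂ (E₂.Z a))) := by ring
  rw [h4]
  calc |(naive E₂ (E₂.Z b) - E₂.m * ht b)
        + (pair E₁ (E₂.Z a) (E₂.Z b) - (E₂.m * ht a + naive E₂ (E₂.Z b)))
        - (pair E₁ (E₂.Z a) (E₂.Z b) - (E₂.m * ht b + naive E₂ (E₂.Z a)))|
      ≤ |naive E₂ (E₂.Z b) - E₂.m * ht b|
        + |pair E₁ (E₂.Z a) (E₂.Z b) - (E₂.m * ht a + naive E₂ (E₂.Z b))|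
        + |pair E₁ (E₂.Z a) (E₂.Z b) - (E₂.m * ht b + naive E₂ (E₂.Z a))| := by
        refine (abs_sub _ _).trans ?_
        gcongr
        exact abs_add_le _ _
    _ ≤ (∑ b ∈ B, |naive E₂ (E₂.Z b) - E₂.m * ht b|) + C₀ * E₂.m + C₀ * E₂.m := by
        gcongr
    _ = 2 * C₀ * E₂.m + ∑ b ∈ B, |naive E₂ (E₂.Z b) - E₂.m * ht b| := by ring

end Fermat.Agent.S17.H35
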