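import Fermat.Agent.S17.H736.TopData
import Fermat.Agent.S17.H35.ContractPkg

/-!
# S17 / tower H, TOP-GLUE (helper35, subtask 606): the package axioms (E3), (BEZ), (ADJ),
(GAUSS), (VDM) of `H736.TopInput` from the CONTRACT

For `T : H736.TopInput N`:

* `e3    : HContract.E3Statement T.E₁ T.E₂ → T.E3Statement`;
* `bez   : HContract.E3Statement T.E₁ T.E₂ → T.BezStatement`;
* `adj   : HContract.ADJStatement T.E₁ T.E₂ → T.AdjStatement`;
* `vdm   : HContract.VDMStatement T.E₁ T.E₂ d₀ → T.d ≤ d₀ → T.VdmStatement`;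
* `gauss : HContract.E3Statement T.E₁ T.E₂ →
           GaussRtStatement T.E₁ T.Rt (deg Rt − (2g − 2)) → T.GaussStatement`.
-/

set_option autoImplicit false
set_option linter.unusedSectionVars false

noncomputable section

open AlgebraicCurve ModularCurve

namespace Fermat.Agent.S17.H35

open Fermat.Agent.Lib.RR Fermat.Agent.S17.HWall Fermat.Agent.S17.HContract
open Fermat.Agent.S17.H77 Fermat.Agent.S17.H680 Fermat.Agent.S17.H980
open Fermat.Agent.S17.H736

variable {N : ℕ} [NeZero N] (T : TopInput N)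

theorem cast_degHom (D : Dv N) :
    ((degHom N D : ℕ) : ℝ) = ((Divisor.degree D.1 : ℤ) : ℝ) := by
  have h := coe_degHom D
  exact_mod_cast congrArg (fun z : ℤ => (z : ℝ)) h

theorem top_NN (D : Dv N) : T.NN D = naive T.E₂ D.1 := rfl

theorem top_pr (D E : Dv N) : T.pr D E = pair T.E₁ D.1 E.1 := rfl

theorem top_KK (D : Dv N) : T.KK D = kapSum T.E₁ D.1 := rfl

theorem top_Pl (D : Dv N) : T.Pl D = plHt T.E₂ D.1 := rfl

theorem top_htL (a : T.Lin) : T.htL a = ht (castQ a.1) := rfl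

theorem top_del (D : Dv N) : T.del D = delta T.E₁ D.1 := by
  classical
  unfold TopInput.del delta selfPair
  rw [one_div, mul_comm, ← div_eq_mul_inv]
  congr 1
  unfold Finsupp.sum
  refine Finset.sum_congr rfl fun P _ => ?_
  dsimp only
  unfold pairPt Finsupp.sum
  rw [Finset.mul_sum, Finsupp.support_erase]
  refine Finset.sum_congr (by congr) fun Q hQ => ?_
  have hQP : Q ≠ P := Finset.ne_of_mem_erase hQ
  rw [Finsupp.erase_ne hQP]
  dsimp only
  rw [hD_symm T.E₁ Q P]
  ring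

/-- reducedness, in the form used by the generic lemmas -/
theorem good_reduced {D : Dv N} (h : T.Good D) (P : Place Qb (modularFunctionFieldBar N)) :
    D.1 P = 0 ∨ D.1 P = 1 := by
  have h1 := h.1 P
  have h2 := D.apply_nonneg P
  omega

/-- **(E3)** of the package. -/
theorem e3 (h : HContract.E3Statement T.E₁ T.E₂) : T.E3Statement := by
  obtain ⟨C, _, hC⟩ := e3_sum h
  refine ⟨C, fun a E hdisj => ?_⟩
  rw [top_pr, top_NN, top_htL, cast_degHom, TopInput.coe_ZL]
  refine hC (castQ a.1) E.1 (T.castQ_ne_zero' a) E.nonneg fun P hP => ?_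
  rcases hdisj P with h1 | h1
  · rwa [TopInput.coe_ZL] at h1
  · exact absurd h1 hP

/-- **(BEZ)** of the package. -/
theorem bez_top (h : HContract.E3Statement T.E₁ T.E₂) : T.BezStatement := by
  obtain ⟨C, hC⟩ := bez h
  refine ⟨C, fun a => ?_⟩
  rw [top_NN, top_htL, TopInput.coe_ZL]
  exact hC (castQ a.1) (T.castQ_ne_zero' a)

/-- **(ADJ)** of the package. -/
theorem adj (h : HContract.ADJStatement T.E₁ T.E₂) : T.AdjStatement := by
  obtain ⟨C, _, hC⟩ := adj_sum h
  refine ⟨C, fun a D D' hgood hZ hdisj => ?_⟩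
  rw [top_del, top_KK, top_pr, top_NN, top_htL, cast_degHom]
  refine hC (castQ a.1) D.1 D'.1 (T.castQ_ne_zero' a) (good_reduced T hgood) ?_ fun P hP => ?_
  · rw [← TopInput.coe_ZL, hZ, Dv.coe_add]
  · exact (hdisj P).resolve_left hP

/-- **(VDM)** of the package. -/
theorem vdm {d₀ : ℕ} (h : HContract.VDMStatement T.E₁ T.E₂ d₀) (hd : T.d ≤ d₀) :
    T.VdmStatement := by
  obtain ⟨C, hC⟩ := vdm_sum h
  refine ⟨C, fun D hgood hdeg => ?_⟩
  rw [top_Pl, top_NN, top_del]
  refine hC D.1 (good_reduced T hgood) ?_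
  have h1 := card_support_of_reduced D.1 (good_reduced T hgood)
  have h2 := coe_degHom D
  rw [hdeg] at h2
  have h3 : (D.1.support.card : ℤ) = T.d := by rw [h1, ← h2]
  have h4 : D.1.support.card = T.d := by exact_mod_cast h3
  omega

/-- **(GAUSS)** of the package, from (GAUSS) for the divisor `K₀ = Rt − c ∞`,
`c = deg Rt − (2g − 2)`. -/
theorem gauss (h3 : HContract.E3Statement T.E₁ T.E₂)
    (hG : GaussRtStatement T.E₁ T.Rt
      (Divisor.degree T.Rt - (2 * (genusR Qb (modularFunctionFieldBar N) : ℤ) - 2))) :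
    T.GaussStatement := by
  have hv : T.E₁.vinf = T.E₂.vinf := by rw [T.vinf₁, T.vinf₂]
  have hZ₁ : T.E₂.Z (castQ T.oneL.1) = T.E₂.m • prim T.E₂.vinf := by
    have := congrArg Subtype.val T.ZL_oneL
    rw [TopInput.coe_ZL, Dv.coe_nsmul, coe_infD] at this
    rw [this, T.vinf₂]
    rfl
  obtain ⟨C, _, hC⟩ := gauss_sum hv h3 (T.castQ_ne_zero' T.oneL) hZ₁ hG
  refine ⟨C, fun D hgood => ?_⟩
  rw [top_KK, top_pr, top_NN, cast_degHom D]
  have hc : (((degHom N T.RtD : ℕ) : ℝ) - (2 * (T.g : ℝ) - 2)) =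
      (((Divisor.degree T.Rt - (2 * (genusR Qb (modularFunctionFieldBar N) : ℤ) - 2) : ℤ)) : ℝ) := by
    rw [cast_degHom, TopInput.coe_RtD]
    push_cast
    rfl
  rw [hc]
  refine hC D.1 D.nonneg fun P hP => ⟨?_, ?_⟩
  · exact (hgood.2.2 P).resolve_left hP
  · intro hPinf
    have h1 := (hgood.2.1 P).resolve_left hP
    rw [coe_infD, hPinf, T.vinf₂, prim_apply_self] at h1
    exact one_ne_zero h1

end Fermat.Agent.S17.H35
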