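import Fermat.Agent.S17.H500.TopData
import Fermat.Agent.S17.H35.ContractPkg

/-!
# S17 / tower H, TOP-GLUE (helper35, subtask 606): the leaves T-E3, T-BEZ, T-ADJ, T-GAUSS, T-VDM
of `H500.Top` (architect helper500), exact types of `coord/S17-HSkel.md` sec. 5

For `I : H500.Top.TopInput F₀`:

* `e3Leaf    : E3Statement I.E I.E → E3Leaf I`;
* `bezLeaf   : E3Statement I.E I.E → BezLeaf I`   (directly from the contract: the auxiliary
               sections come from a pencil, neither `StructLeaf` nor `Mov2Leaf` is needed);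
* `adjLeaf   : ADJStatement I.E I.E → AdjLeaf I`;
* `gaussLeaf : GaussPlus I → E3Statement I.E I.E → GaussLeaf I`;
* `vdmLeaf   : I.d ≤ d₀ → VDMStatement I.E I.E d₀ → VdmLeaf I`.
-/

set_option autoImplicit false
set_option linter.unusedSectionVars false

noncomputable section

open AlgebraicCurve

namespace Fermat.Agent.S17.H35

open Fermat.Agent.Lib.RR Fermat.Agent.S17.HWall Fermat.Agent.S17.HContract
open Fermat.Agent.S17.H77 Fermat.Agent.S17.H680 Fermat.Agent.S17.H980 ModularCurve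
open Fermat.Agent.S17.H500.Top

variable {F₀ : IntermediateField ℚ (LaurentSeries ℚ)} [FF1 Qb (laurentBaseChange Qb F₀)]
variable (I : TopInput F₀)

theorem leaf_cast_degHom (D : Dv F₀) :
    ((degHom D : ℕ) : ℝ) =
      ((Divisor.degree (D : Divisor Qb (laurentBaseChange Qb F₀)) : ℤ) : ℝ) := by
  have h := coe_degHom D
  exact_mod_cast congrArg (fun z : ℤ => (z : ℝ)) h

theorem leaf_N (D : Dv F₀) :
    I.N D = naive I.E (D : Divisor Qb (laurentBaseChange Qb F₀)) := rfl

theorem leaf_pr (D E : Dv F₀) :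
    I.pr D E = pair I.E (D : Divisor Qb (laurentBaseChange Qb F₀))
      (E : Divisor Qb (laurentBaseChange Qb F₀)) := rfl

theorem leaf_Ksum (D : Dv F₀) :
    I.Ksum D = kapSum I.E (D : Divisor Qb (laurentBaseChange Qb F₀)) := rfl

theorem leaf_Pl (D : Dv F₀) :
    I.Pl D = plHt I.E (D : Divisor Qb (laurentBaseChange Qb F₀)) := rfl

theorem leaf_htL (a : I.Lin) : I.htL a = ht (castQ a.1) := rfl

theorem leaf_castQ_ne_zero (a : I.Lin) : castQ a.1 ≠ 0 := castQ_ne_zero a.2

theorem leaf_del (D : Dv F₀) :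
    I.del D = delta I.E (D : Divisor Qb (laurentBaseChange Qb F₀)) := by
  classical
  unfold TopInput.del delta selfPair
  rw [one_div, mul_comm, ← div_eq_mul_inv]
  congr 1
  unfold Finsupp.sum
  refine Finset.sum_congr rfl fun P _ => ?_
  dsimp only
  unfold pairPt Finsupp.sum
  rw [Finset.mul_sum, Finsupp.support_erase]
  rw [← Finset.sum_erase (D : Divisor Qb (laurentBaseChange Qb F₀)).support (a := P)
    (f := fun Q => if P = Q then (0 : ℝ) else
        ((D : Divisor Qb (laurentBaseChange Qb F₀)) P : ℝ) *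
          ((D : Divisor Qb (laurentBaseChange Qb F₀)) Q : ℝ) * hD I.E P Q) (by simp)]
  refine Finset.sum_congr (by congr) fun Q hQ => ?_
  have hQP : Q ≠ P := Finset.ne_of_mem_erase hQ
  rw [if_neg (Ne.symm hQP), Finsupp.erase_ne hQP]
  dsimp only
  rw [hD_symm I.E Q P]
  ring

theorem leaf_apply_nonneg (D : Dv F₀) (P : Place Qb (laurentBaseChange Qb F₀)) :
    0 ≤ (D : Divisor Qb (laurentBaseChange Qb F₀)) P := by
  have h := Finsupp.le_def.mp D.nonneg P
  simpa using h

/-- reducedness, in the form used by the generic lemmas -/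
theorem leaf_reduced {D : Dv F₀} (h : I.Good D) (P : Place Qb (laurentBaseChange Qb F₀)) :
    (D : Divisor Qb (laurentBaseChange Qb F₀)) P = 0 ∨
      (D : Divisor Qb (laurentBaseChange Qb F₀)) P = 1 := by
  have h1 := h.1 P
  have h2 := leaf_apply_nonneg D P
  omega

/-- `Z_1 = m ∞`. -/
theorem leaf_Z_one : I.E.Z (castQ I.oneL.1) = I.E.m • prim I.E.vinf := by
  have hlin : lin I.E.x (castQ I.oneL.1) = 1 := by
    unfold lin
    rw [Finset.sum_eq_single (0 : Fin (I.E.r + 1))]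
    · simp [castQ, TopInput.oneL, I.x_zero]
    · intro j _ hj
      simp [castQ, TopInput.oneL, Pi.single_eq_of_ne hj]
    · intro h
      exact absurd (Finset.mem_univ _) h
  rw [I.E.Z_eq (leaf_castQ_ne_zero I I.oneL)]
  have h : divOf (lin I.E.x (castQ I.oneL.1)) (I.E.lin_ne_zero (leaf_castQ_ne_zero I I.oneL))
      = (0 : Divisor Qb (laurentBaseChange Qb F₀)) := by
    ext P
    rw [divOf_apply, hlin]
    simp
  rw [h, zero_add]

/-- **T-E3.** -/
theorem e3Leaf (h : HContract.E3Statement I.E I.E) : E3Leaf I := by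
  obtain ⟨C, _, hC⟩ := e3_sum h
  refine ⟨C, fun a E hdisj => ?_⟩
  rw [leaf_pr, leaf_N, leaf_htL, leaf_cast_degHom, I.coe_ZL]
  refine hC (castQ a.1) E (leaf_castQ_ne_zero I a) E.nonneg fun P hP => ?_
  rcases hdisj P with h1 | h1
  · rwa [I.coe_ZL] at h1
  · exact absurd h1 hP

/-- **T-BEZ**, directly from the contract. -/
theorem bezLeaf (h : HContract.E3Statement I.E I.E) : BezLeaf I := by
  obtain ⟨C, hC⟩ := bez h
  refine ⟨C, fun a => ?_⟩
  rw [leaf_N, leaf_htL, I.coe_ZL]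
  exact hC (castQ a.1) (leaf_castQ_ne_zero I a)

/-- **T-ADJ.** -/
theorem adjLeaf (h : HContract.ADJStatement I.E I.E) : AdjLeaf I := by
  obtain ⟨C, _, hC⟩ := adj_sum h
  refine ⟨C, fun a D D' hgood hZ hdisj => ?_⟩
  rw [leaf_del, leaf_Ksum, leaf_pr, leaf_N, leaf_htL, leaf_cast_degHom]
  refine hC (castQ a.1) D D' (leaf_castQ_ne_zero I a) (leaf_reduced I hgood) ?_ fun P hP => ?_
  · rw [← I.coe_ZL, hZ, AddSubmonoid.coe_add]
  · exact (hdisj P).resolve_left hP

/-- **T-VDM.** -/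
theorem vdmLeaf (d₀ : ℕ) (hd : I.d ≤ d₀) (h : HContract.VDMStatement I.E I.E d₀) :
    VdmLeaf I := by
  obtain ⟨C, hC⟩ := vdm_sum h
  refine ⟨C, fun D hgood hdeg => ?_⟩
  rw [leaf_Pl, leaf_N, leaf_del]
  refine hC D (leaf_reduced I hgood) ?_
  have h1 := card_support_of_reduced (D : Divisor Qb (laurentBaseChange Qb F₀))
    (leaf_reduced I hgood)
  have h2 := coe_degHom D
  rw [hdeg] at h2
  have h3 : ((D : Divisor Qb (laurentBaseChange Qb F₀)).support.card : ℤ) = I.d := by
    rw [h1, ← h2]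
  have h4 : (D : Divisor Qb (laurentBaseChange Qb F₀)).support.card = I.d := by
    exact_mod_cast h3
  omega

/-- (GAUSS⁺) of `TopInput` is `GaussRtStatement`. -/
theorem gaussRt_of_gaussPlus (hg : GaussPlus I) : GaussRtStatement I.E I.Rt (I.c : ℤ) := by
  obtain ⟨C, hC⟩ := hg
  refine ⟨C, fun P hP hPinf => ?_⟩
  have := hC P hP hPinf
  simpa using this

/-- **T-GAUSS.** -/
theorem gaussLeaf (hg : GaussPlus I) (he : HContract.E3Statement I.E I.E) : GaussLeaf I := by
  obtain ⟨C, _, hC⟩ := gauss_sum (E₁ := I.E) (E₂ := I.E) rfl he (leaf_castQ_ne_zero I I.oneL)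
    (leaf_Z_one I) (gaussRt_of_gaussPlus I hg)
  refine ⟨C, fun D hgood => ?_⟩
  rw [leaf_Ksum, leaf_pr, leaf_N, leaf_cast_degHom D]
  have hc : (((degHom I.RtD : ℕ) : ℝ) -
      (2 * (genusR Qb (laurentBaseChange Qb F₀) : ℝ) - 2)) = (((I.c : ℕ) : ℤ) : ℝ) := by
    rw [leaf_cast_degHom]
    have h1 : ((I.RtD : Dv F₀) : Divisor Qb (laurentBaseChange Qb F₀)) = I.Rt := rfl
    rw [h1, I.deg_Rt]
    push_cast
    ring
  rw [hc]
  refine hC D D.nonneg fun P hP => ⟨?_, ?_⟩
  · exact (hgood.2.2 P).resolve_left hP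
  · intro hPinf
    rw [hPinf] at hP
    exact hP hgood.2.1

end Fermat.Agent.S17.H35
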